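import Mathlib

/-!
# S16 / LV1H / Small (helper1): `M₂(SL₂(ℤ)) = 0`, `S₁₄(SL₂(ℤ)) = 0`, `S₁₂(SL₂(ℤ)) = ℂ Δ`.
-/

set_option autoImplicit false

open UpperHalfPlane ModularForm ModularFormClass MatrixGroups EisensteinSeries

namespace Fermat.Agent.S16.LV1H

theorem weight_two_eq_zero' {k : ℤ} (hk : k = 2) (f : ModularForm 𝒮ℒ k) : f = 0 := by
  subst hk
  exact rank_zero_iff_forall_zero.mp levelOne_weight_two_rank_zero f

theorem weight_fourteen_eq_zero' {k : ℤ} (hk : k = 14) (f : ModularForm 𝒮ℒ k)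
    (h0 : (qExpansion 1 f).coeff 0 = 0) : f = 0 := by
  subst hk
  have hG : CuspForm.discriminantEquiv (toCuspForm f h0) = 0 :=
    weight_two_eq_zero' (by norm_num) _
  have hc : toCuspForm f h0 = 0 := by
    simpa using hG
  ext z
  have := congrArg (fun g : CuspForm 𝒮ℒ 14 => g z) hc
  simpa using this

theorem weight_twelve_eq' {k : ℤ} (hk : k = 12) (f : ModularForm 𝒮ℒ k)
    (h0 : (qExpansion 1 f).coeff 0 = 0) :
    (∀ z : ℍ, f z = (qExpansion 1 f).coeff 1 * ModularForm.discriminant z) ∧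
      qExpansion 1 f = (qExpansion 1 f).coeff 1 • qExpansion 1 ModularForm.discriminant := by
  subst hk
  obtain ⟨c, hc⟩ := CuspForm.exists_smul_discriminant_of_weight_eq_twelve (toCuspForm f h0)
  have hfun : (f : ℍ → ℂ) = c • (CuspForm.discriminant : ℍ → ℂ) := by
    ext z
    have := congrArg (fun g : CuspForm 𝒮ℒ 12 => g z) hc
    simpa using this.symm
  have hq : qExpansion 1 f = c • qExpansion 1 ModularForm.discriminant := by
    rw [hfun, ModularForm.qExpansion_smul one_pos one_mem_strictPeriods_SL c CuspForm.discriminant,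
      CuspForm.coe_discriminant]
  have hc1 : (qExpansion 1 f).coeff 1 = c := by
    rw [hq, PowerSeries.coeff_smul, discriminant_qExpansion_coeff_one, smul_eq_mul, mul_one]
  rw [hc1]
  refine ⟨fun z => ?_, hq⟩
  rw [hfun]
  rfl

end Fermat.Agent.S16.LV1H
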