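import Mathlib
import Fermat.Agent.S23.LevelOne
import Fermat.Agent.S16.LV1.Eis

/-!
# S16 / LV1H / Tau (helper1): the `q`-expansion of `Δ` has integer coefficients.

`A = ∑_{n ≥ 1} σ₃(n) qⁿ`, `B = ∑_{n ≥ 1} σ₅(n) qⁿ` in `ℤ⟦q⟧`; `E₄ = 1 + 240 A`, `E₆ = 1 - 504 B`,
`1728 Δ = E₄³ - E₆²`, and `5 A + 7 B = 12 C` with `C` integral (`12 ∣ 5 d³ + 7 d⁵`), so
`Δ = C + 100 A² + 8000 A³ - 147 B²`.
-/

set_option autoImplicit false

open UpperHalfPlane ModularForm ModularFormClass MatrixGroups EisensteinSeries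

namespace Fermat.Agent.S16.LV1H

open ArithmeticFunction in
theorem dvd_twelve (n : ℕ) : (12 : ℤ) ∣ 5 * (sigma 3 n : ℤ) + 7 * (sigma 5 n : ℤ) := by
  have key : ∀ x : ZMod 12, 5 * x ^ 3 + 7 * x ^ 5 = 0 := by decide
  have hterm : ∀ d : ℕ, (12 : ℤ) ∣ 5 * (d : ℤ) ^ 3 + 7 * (d : ℤ) ^ 5 := by
    intro d
    have h := (ZMod.intCast_zmod_eq_zero_iff_dvd (5 * (d : ℤ) ^ 3 + 7 * (d : ℤ) ^ 5) 12).mp
      (by push_cast; exact key _)
    exact_mod_cast h
  have hsum : 5 * (sigma 3 n : ℤ) + 7 * (sigma 5 n : ℤ) =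
      ∑ d ∈ n.divisors, (5 * (d : ℤ) ^ 3 + 7 * (d : ℤ) ^ 5) := by
    rw [sigma_apply, sigma_apply, Finset.sum_add_distrib, ← Finset.mul_sum, ← Finset.mul_sum]
    push_cast
    rfl
  rw [hsum]
  exact Finset.dvd_sum fun d _ => hterm d

open ArithmeticFunction in
/-- `A = ∑_{n ≥ 1} σ₃(n) qⁿ`. -/
noncomputable def sA : PowerSeries ℤ := PowerSeries.mk fun n => if n = 0 then 0 else (sigma 3 n : ℤ)

open ArithmeticFunction in
/-- `B = ∑_{n ≥ 1} σ₅(n) qⁿ`. -/
noncomputable def sB : PowerSeries ℤ := PowerSeries.mk fun n => if n = 0 then 0 else (sigma 5 n : ℤ)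

open ArithmeticFunction in
/-- `C = (5 A + 7 B) / 12`. -/
noncomputable def sC : PowerSeries ℤ :=
  PowerSeries.mk fun n => if n = 0 then 0 else (5 * (sigma 3 n : ℤ) + 7 * (sigma 5 n : ℤ)) / 12

theorem twelve_mul_sC : 12 * sC = 5 * sA + 7 * sB := by
  ext n
  have h12 : (12 : PowerSeries ℤ) = PowerSeries.C (12 : ℤ) := by simp
  have h5 : (5 : PowerSeries ℤ) = PowerSeries.C (5 : ℤ) := by simp
  have h7 : (7 : PowerSeries ℤ) = PowerSeries.C (7 : ℤ) := by simp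
  rw [h12, h5, h7, map_add, PowerSeries.coeff_C_mul, PowerSeries.coeff_C_mul,
    PowerSeries.coeff_C_mul, sC, sA, sB, PowerSeries.coeff_mk, PowerSeries.coeff_mk,
    PowerSeries.coeff_mk]
  by_cases hn : n = 0
  · simp [hn]
  · rw [if_neg hn, if_neg hn, if_neg hn]
    exact Int.mul_ediv_cancel' (dvd_twelve n)

theorem qExpansion_E4 :
    qExpansion 1 E₄ = PowerSeries.map (Int.castRingHom ℂ) (1 + 240 * sA) := by
  ext n
  rw [Fermat.Agent.S16.LV1.E4_coeff', PowerSeries.coeff_map]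
  have h240 : (240 : PowerSeries ℤ) = PowerSeries.C (240 : ℤ) := by simp
  rw [map_add, h240, PowerSeries.coeff_C_mul, sA, PowerSeries.coeff_mk, PowerSeries.coeff_one]
  by_cases hn : n = 0
  · simp [hn]
  · simp [hn]

theorem qExpansion_E6 :
    qExpansion 1 E₆ = PowerSeries.map (Int.castRingHom ℂ) (1 - 504 * sB) := by
  ext n
  rw [Fermat.Agent.S16.LV1.E6_coeff', PowerSeries.coeff_map]
  have h504 : (504 : PowerSeries ℤ) = PowerSeries.C (504 : ℤ) := by simp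
  rw [map_sub, h504, PowerSeries.coeff_C_mul, sB, PowerSeries.coeff_mk, PowerSeries.coeff_one]
  by_cases hn : n = 0
  · simp [hn]
  · simp [hn]

theorem exists_tau' : ∃ t : ℕ → ℤ, ∀ n : ℕ,
    (qExpansion 1 ModularForm.discriminant).coeff n = (t n : ℂ) := by
  set D : PowerSeries ℤ := sC + 100 * sA ^ 2 + 8000 * sA ^ 3 - 147 * sB ^ 2 with hD
  have hid : (1 + 240 * sA) ^ 3 - (1 - 504 * sB) ^ 2 = 1728 * D := by
    rw [hD]
    linear_combination (-144 : PowerSeries ℤ) * twelve_mul_sC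
  have h1 : (1728 : ℂ) • qExpansion 1 ModularForm.discriminant =
      (1728 : ℂ) • PowerSeries.map (Int.castRingHom ℂ) D := by
    rw [Fermat.Agent.S23.LevelOneAux.qExpansion_discriminant, qExpansion_E4, qExpansion_E6,
      ← map_pow, ← map_pow, ← map_sub, hid, map_mul]
    have : PowerSeries.map (Int.castRingHom ℂ) (1728 : PowerSeries ℤ) = PowerSeries.C (1728 : ℂ) := by
      have h : (1728 : PowerSeries ℤ) = PowerSeries.C (1728 : ℤ) := by simp
      rw [h, PowerSeries.map_C]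
      simp
    rw [this]
    ext n
    rw [PowerSeries.coeff_C_mul, PowerSeries.coeff_smul, smul_eq_mul]
  have h2 : qExpansion 1 ModularForm.discriminant = PowerSeries.map (Int.castRingHom ℂ) D :=
    smul_right_injective _ (by norm_num : (1728 : ℂ) ≠ 0) h1
  refine ⟨fun n => D.coeff n, fun n => ?_⟩
  rw [h2, PowerSeries.coeff_map]
  simp

end Fermat.Agent.S16.LV1H
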