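import Mathlib
import Fermat.Agent.S16.LV1.Eis
import Fermat.Agent.S16.LV1H.Tau

/-!
# S16 / LV1H / Sturm (helper1): the level-one Sturm bound modulo an additive subgroup `J ⊆ ℂ`,
for weights divisible by `4` (strong induction on the weight: subtract `a₀(F) E₄^(K/4)`, divide by
`Δ`, use the integrality of the `q`-expansions of `E₄` and `Δ`).
-/

set_option autoImplicit false

open UpperHalfPlane ModularForm ModularFormClass MatrixGroups EisensteinSeries

namespace Fermat.Agent.S16.LV1H

/-- (ii): a product of an integral power series with a series with coefficients in `J` has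
coefficients in `J`. -/
theorem coeff_mul_mem (J : AddSubgroup ℂ) {t : ℕ → ℤ} {D Q : PowerSeries ℂ}
    (hD : ∀ n, D.coeff n = (t n : ℂ)) (hQ : ∀ i, Q.coeff i ∈ J) (n : ℕ) :
    (D * Q).coeff n ∈ J := by
  rw [PowerSeries.coeff_mul]
  refine J.sum_mem fun x _ => ?_
  rw [hD, ← zsmul_eq_mul]
  exact J.zsmul_mem (hQ _) _

/-- (i): division by an integral series `D = q + …`. -/
theorem coeff_div_mem (J : AddSubgroup ℂ) {t : ℕ → ℤ} {D Q : PowerSeries ℂ}
    (hD : ∀ n, D.coeff n = (t n : ℂ)) (h0 : t 0 = 0) (h1 : t 1 = 1) (K : ℤ)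
    (hP : ∀ i : ℕ, 12 * (i : ℤ) ≤ K → (D * Q).coeff i ∈ J) :
    ∀ i : ℕ, 12 * ((i : ℤ) + 1) ≤ K → Q.coeff i ∈ J := by
  intro i
  induction i using Nat.strong_induction_on with
  | _ i ih =>
    intro hi
    have hP' := hP (i + 1) (by push_cast; exact hi)
    rw [PowerSeries.coeff_mul, Finset.Nat.sum_antidiagonal_eq_sum_range_succ_mk,
      Finset.sum_range_succ', Finset.sum_range_succ'] at hP'
    simp only [hD, h0, h1, Int.cast_zero, zero_mul, add_zero, Int.cast_one, one_mul,
      Nat.add_sub_cancel, Nat.sub_zero] at hP'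
    have hsum : ∑ a ∈ Finset.range i, (t (a + 1 + 1) : ℂ) * Q.coeff (i + 1 - (a + 1 + 1)) ∈ J := by
      refine J.sum_mem fun a ha => ?_
      rw [← zsmul_eq_mul]
      refine J.zsmul_mem (ih _ ?_ ?_) _
      · have := Finset.mem_range.mp ha
        omega
      · have := Finset.mem_range.mp ha
        have h2 : ((i + 1 - (a + 1 + 1) : ℕ) : ℤ) + 1 ≤ (i : ℤ) + 1 := by omega
        linarith
    have := J.sub_mem hP' hsum
    simpa using this


/-- The `q`-expansion of `E₄ ^ m` is integral with constant term `1`. -/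
theorem exists_E4_pow (m : ℕ) : ∃ P : PowerSeries ℤ, P.coeff 0 = 1 ∧
    (qExpansion 1 E₄) ^ m = PowerSeries.map (Int.castRingHom ℂ) P := by
  refine ⟨(1 + 240 * sA) ^ m, ?_, ?_⟩
  · have hA0 : PowerSeries.constantCoeff sA = 0 := by
      rw [← PowerSeries.coeff_zero_eq_constantCoeff_apply, sA, PowerSeries.coeff_mk]
      simp
    rw [PowerSeries.coeff_zero_eq_constantCoeff_apply, map_pow, map_add, map_mul, hA0]
    simp
  · rw [qExpansion_E4, map_pow]

theorem tau_data : ∃ t : ℕ → ℤ, (∀ n : ℕ,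
    (qExpansion 1 ModularForm.discriminant).coeff n = (t n : ℂ)) ∧ t 0 = 0 ∧ t 1 = 1 := by
  obtain ⟨t, ht⟩ := exists_tau'
  refine ⟨t, ht, ?_, ?_⟩
  · have h0 : (qExpansion 1 ModularForm.discriminant).coeff 0 = 0 := by
      simpa using CuspFormClass.qExpansion_coeff_zero CuspForm.discriminant one_pos
        one_mem_strictPeriods_SL
    rw [ht] at h0
    exact_mod_cast h0
  · have h1 := ModularForm.discriminant_qExpansion_coeff_one
    rw [ht] at h1
    exact_mod_cast h1

theorem sturm_aux (J : AddSubgroup ℂ) : ∀ n : ℕ, ∀ K : ℤ, K.toNat = n → (4 : ℤ) ∣ K →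
    ∀ F : ModularForm 𝒮ℒ K, (∀ i : ℕ, 12 * (i : ℤ) ≤ K → (qExpansion 1 F).coeff i ∈ J) →
    ∀ i : ℕ, (qExpansion 1 F).coeff i ∈ J := by
  intro n
  induction n using Nat.strong_induction_on with
  | _ n ih =>
    intro K hn hK F h i
    rcases lt_or_ge K 0 with hneg | hnn
    · have hF : (F : ℍ → ℂ) = 0 := levelOne_neg_weight_eq_zero hneg F
      rw [hF, qExpansion_zero]
      simp
    · obtain ⟨m', hm'⟩ := hK
      obtain ⟨m, rfl⟩ : ∃ m : ℕ, m' = (m : ℤ) := ⟨m'.toNat, by omega⟩
      obtain ⟨P, hP0, hP⟩ := exists_E4_pow m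
      obtain ⟨t, ht, ht0, ht1⟩ := tau_data
      let E : ModularForm 𝒮ℒ K := ModularForm.mcast (by omega) (E₄.pow m)
      have hE : qExpansion 1 E = PowerSeries.map (Int.castRingHom ℂ) P := by
        rw [← hP, ← ModularForm.qExpansion_pow one_pos one_mem_strictPeriods_SL E₄ m]
        rfl
      set c : ℂ := (qExpansion 1 F).coeff 0 with hc
      have hcJ : c ∈ J := h 0 (by simpa using hnn)
      let F' : ModularForm 𝒮ℒ K := F - c • E
      have hF' : qExpansion 1 F' = qExpansion 1 F - c • qExpansion 1 E := by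
        show qExpansion 1 (⇑(F - c • E)) = _
        rw [FunLike.coe_sub, ModularForm.qExpansion_sub one_pos one_mem_strictPeriods_SL,
          FunLike.coe_smul, ModularForm.qExpansion_smul one_pos one_mem_strictPeriods_SL]
      have hcE : ∀ j : ℕ, (c • qExpansion 1 E).coeff j ∈ J := by
        intro j
        rw [PowerSeries.coeff_smul, hE, PowerSeries.coeff_map, smul_eq_mul, eq_intCast, mul_comm,
          ← zsmul_eq_mul]
        exact J.zsmul_mem hcJ _
      have h0' : (qExpansion 1 F').coeff 0 = 0 := by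
        rw [hF', map_sub, PowerSeries.coeff_smul, hE, PowerSeries.coeff_map, hP0]
        simp [hc]
      have hFG := qExpansion_eq_qExpansion_discriminant_mul F' h0'
      set G : ModularForm 𝒮ℒ (K - 12) := CuspForm.discriminantEquiv (toCuspForm F' h0') with hG
      have hGJ : ∀ j : ℕ, (qExpansion 1 G).coeff j ∈ J := by
        rcases lt_or_ge K 12 with h12 | h12
        · intro j
          have hG0 : (G : ℍ → ℂ) = 0 := levelOne_neg_weight_eq_zero (by omega) G
          rw [hG0, qExpansion_zero]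
          simp
        · refine ih (K - 12).toNat (by omega) (K - 12) rfl ⟨(m : ℤ) - 3, by omega⟩ G ?_
          intro j hj
          refine coeff_div_mem J ht ht0 ht1 K ?_ j (by linarith)
          intro j' hj'
          rw [← hFG, hF', map_sub]
          exact J.sub_mem (h j' hj') (hcE j')
      have hF'J : ∀ j : ℕ, (qExpansion 1 F').coeff j ∈ J := by
        intro j
        rw [hFG]
        exact coeff_mul_mem J ht hGJ j
      have hFeq : qExpansion 1 F = qExpansion 1 F' + c • qExpansion 1 E := by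
        rw [hF']; ring
      rw [hFeq, map_add]
      exact J.add_mem (hF'J i) (hcE i)

theorem sturm_mod_le (J : AddSubgroup ℂ) {K : ℤ} (hK : (4 : ℤ) ∣ K) (F : ModularForm 𝒮ℒ K)
    (h : ∀ i : ℕ, 12 * (i : ℤ) ≤ K → (qExpansion 1 F).coeff i ∈ J) (i : ℕ) :
    (qExpansion 1 F).coeff i ∈ J :=
  sturm_aux J K.toNat K rfl hK F h i

end Fermat.Agent.S16.LV1H
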